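import Fermat.Agent.CocompactTrace.Series
import Fermat.Agent.CocompactForms.NoParabolic

/-!
# The elements of a cocompact Fuchsian group

A nontrivial element is elliptic or hyperbolic.  A hyperbolic element is diagonal in a suitable
basis, and then so is all that commutes with it, so its centraliser is `±1` times a cyclic group.
-/

set_option autoImplicit false
set_option linter.unusedSectionVars false
set_option linter.style.haveILetI false

noncomputable section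

open Set Filter Topology Complex
open UpperHalfPlane hiding I
open FA.CocompactForms FA.CocompactFunctions FA.CocompactDegree FA.CocompactGaussBonnet FA.SLnCount
open scoped MatrixGroups

namespace FA.CocompactTrace

theorem det_entries (g : SL(2, ℝ)) : g 0 0 * g 1 1 - g 0 1 * g 1 0 = 1 :=
  (Matrix.det_fin_two _).symm.trans g.prop

theorem sl_ext {g h : SL(2, ℝ)} (h00 : g 0 0 = h 0 0) (h01 : g 0 1 = h 0 1) (h10 : g 1 0 = h 1 0)
    (h11 : g 1 1 = h 1 1) : g = h :=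
  Subtype.ext <| Matrix.ext fun i j => by fin_cases i <;> fin_cases j <;> assumption

theorem exists_fixed_of_trace_lt {g : SL(2, ℝ)} (h : (g 0 0 + g 1 1) ^ 2 < 4) :
    ∃ p : ℍ, g • p = p := by
  have hdet := det_entries g
  have hc : g 1 0 ≠ 0 := fun hc => by
    rw [hc, mul_zero, sub_zero] at hdet
    nlinarith [sq_nonneg (g 0 0 - g 1 1)]
  set r := Real.sqrt (4 - (g 0 0 + g 1 1) ^ 2) with hr
  have hr2 : r ^ 2 = 4 - (g 0 0 + g 1 1) ^ 2 := Real.sq_sqrt (by linarith)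
  have hr0 : 0 < r := Real.sqrt_pos.2 (by linarith)
  refine ⟨⟨⟨(g 0 0 - g 1 1) / (2 * g 1 0), r / (2 * |g 1 0|)⟩,
    div_pos hr0 (mul_pos two_pos (abs_pos.2 hc))⟩, ?_⟩
  rw [UpperHalfPlane.ext_iff, coe_smul_eq_mob, mob,
    div_eq_iff (jac_ne_zero g (ne_of_gt (div_pos hr0 (mul_pos two_pos (abs_pos.2 hc)))))]
  simp only [jac, Complex.ext_iff, add_re, mul_re, ofReal_re, ofReal_im, zero_mul, sub_zero,
    add_im, mul_im, add_zero]
  constructor
  · field_simp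
    rw [sq_abs]
    linear_combination (g 1 0 ^ 2) * hr2 - (4 * g 1 0 ^ 2) * hdet
  · field_simp
    ring

/-- An element with real eigenvalues is diagonal in some basis. -/
theorem exists_diag {g : SL(2, ℝ)} (h : 4 < (g 0 0 + g 1 1) ^ 2) :
    ∃ P : SL(2, ℝ), (P⁻¹ * g * P) 0 1 = 0 ∧ (P⁻¹ * g * P) 1 0 = 0 ∧
      (P⁻¹ * g * P) 0 0 ≠ (P⁻¹ * g * P) 1 1 := by
  have hdet := det_entries g
  have key : ∀ M : SL(2, ℝ), M 0 0 + M 1 1 = g 0 0 + g 1 1 → M 0 1 = 0 → M 1 0 = 0 →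
      M 0 0 ≠ M 1 1 := fun M ht h1 h2 he => by
    have hM := det_entries M
    rw [h1, zero_mul, sub_zero, he] at hM
    rw [he] at ht
    rw [← ht] at h
    nlinarith
  by_cases hb : g 0 1 = 0
  · by_cases hc : g 1 0 = 0
    · exact ⟨1, by simpa using hb, by simpa using hc, by simpa using key g rfl hb hc⟩
    · have had : g 0 0 - g 1 1 ≠ 0 := fun e => by
        rw [hb, zero_mul, sub_zero, sub_eq_zero.1 e] at hdet
        rw [sub_eq_zero.1 e] at h
        nlinarith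
      set P : SL(2, ℝ) := ⟨!![(g 0 0 - g 1 1) / g 1 0, 0; 1, g 1 0 / (g 0 0 - g 1 1)], by
        rw [Matrix.det_fin_two_of]
        field_simp
        ring⟩
      have h01 : (P⁻¹ * g * P) 0 1 = 0 := by
        simp [P, Matrix.adjugate_fin_two, Matrix.mul_apply, Matrix.vecMul, dotProduct,
          Fin.sum_univ_two, hb]
      have h10 : (P⁻¹ * g * P) 1 0 = 0 := by
        simp [P, Matrix.adjugate_fin_two, Matrix.mul_apply, Matrix.vecMul, dotProduct,
          Fin.sum_univ_two, hb]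
        field_simp
        ring
      refine ⟨P, h01, h10, key _ ?_ h01 h10⟩
      simp [P, Matrix.adjugate_fin_two, Matrix.mul_apply, Matrix.vecMul, dotProduct,
        Fin.sum_univ_two, hb]
      field_simp
  · set r := Real.sqrt ((g 0 0 + g 1 1) ^ 2 - 4)
    have hr2 : r ^ 2 = (g 0 0 + g 1 1) ^ 2 - 4 := Real.sq_sqrt (by linarith)
    have hr0 : r ≠ 0 := (Real.sqrt_pos.2 (by linarith)).ne'
    set P : SL(2, ℝ) := ⟨!![g 0 1, -1 / r;
      (g 1 1 - g 0 0 + r) / 2, -((g 1 1 - g 0 0 - r) / 2) / (g 0 1 * r)], by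
        rw [Matrix.det_fin_two_of]
        field_simp
        ring⟩
    have h01 : (P⁻¹ * g * P) 0 1 = 0 := by
      simp [P, Matrix.adjugate_fin_two, Matrix.mul_apply, Matrix.vecMul, dotProduct,
        Fin.sum_univ_two]
      field_simp
      grind
    have h10 : (P⁻¹ * g * P) 1 0 = 0 := by
      simp [P, Matrix.adjugate_fin_two, Matrix.mul_apply, Matrix.vecMul, dotProduct,
        Fin.sum_univ_two]
      field_simp
      grind
    refine ⟨P, h01, h10, key _ ?_ h01 h10⟩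
    simp [P, Matrix.adjugate_fin_two, Matrix.mul_apply, Matrix.vecMul, dotProduct,
      Fin.sum_univ_two]
    field_simp
    ring

variable {Γ : Subgroup SL(2, ℝ)} [DiscreteTopology Γ] [CompactSpace (SL(2, ℝ) ⧸ Γ)]

theorem eq_one_or_neg_one_of_trace {g : SL(2, ℝ)} (hg : g ∈ Γ) (h : (g 0 0 + g 1 1) ^ 2 = 4) :
    g = 1 ∨ g = -1 := by
  rcases mul_eq_zero.1 (show (g 0 0 + g 1 1 - 2) * (g 0 0 + g 1 1 + 2) = 0 by
    linear_combination h) with h2 | h2
  · exact .inl (eq_one_of_trace_eq_two hg (by linarith))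
  · right
    have hdet := det_entries g
    have hsq : g * g = 1 := eq_one_of_trace_eq_two (mul_mem hg hg) (by
      simp [Matrix.mul_apply, Fin.sum_univ_two]
      linear_combination (g 0 0 + g 1 1 - 2) * h2 - 2 * hdet)
    have e : ∀ i j, (g * g) i j = (1 : SL(2, ℝ)) i j := fun i j => by rw [hsq]
    have e00 := e 0 0
    have e01 := e 0 1
    have e10 := e 1 0
    have e11 := e 1 1
    simp [Matrix.mul_apply, Fin.sum_univ_two] at e00 e01 e10 e11
    refine sl_ext ?_ ?_ ?_ ?_ <;> simp <;> grind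

/-- **The trichotomy.** -/
theorem elliptic_or_hyperbolic {g : SL(2, ℝ)} (hg : g ∈ Γ) :
    (g = 1 ∨ g = -1) ∨ ((g 0 0 + g 1 1) ^ 2 < 4 ∧ ∃ p : ℍ, g • p = p) ∨
      4 < (g 0 0 + g 1 1) ^ 2 := by
  rcases lt_trichotomy ((g 0 0 + g 1 1) ^ 2) 4 with h | h | h
  · exact .inr (.inl ⟨h, exists_fixed_of_trace_lt h⟩)
  · exact .inl (eq_one_or_neg_one_of_trace hg h)
  · exact .inr (.inr h)

theorem trace_gt_of_no_fixed {γ : Γ} (hγ : ∀ p : ℍ, γ • p ≠ p) :
    4 < ((γ : SL(2, ℝ)) 0 0 + (γ : SL(2, ℝ)) 1 1) ^ 2 := by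
  rcases elliptic_or_hyperbolic γ.2 with h | ⟨-, p, hp⟩ | h
  · refine absurd ?_ (hγ UpperHalfPlane.I)
    show (γ : SL(2, ℝ)) • UpperHalfPlane.I = _
    rcases h with h | h <;> rw [h, UpperHalfPlane.ext_iff, coe_smul_eq_mob] <;> simp [mob, jac]
  · exact absurd hp (hγ p)
  · exact h

/-! ### The axis -/

/-- The diagonal form of an element, and of what commutes with it. -/
structure Axis (Z : Subgroup Γ) (P : SL(2, ℝ)) : Prop where
  upper : ∀ ζ ∈ Z, (P⁻¹ * (ζ : SL(2, ℝ)) * P) 0 1 = 0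
  lower : ∀ ζ ∈ Z, (P⁻¹ * (ζ : SL(2, ℝ)) * P) 1 0 = 0

theorem exists_axis {γ : Γ} (hγ : ∀ p : ℍ, γ • p ≠ p) :
    ∃ P : SL(2, ℝ), Axis (Subgroup.centralizer {γ}) P ∧
      (P⁻¹ * (γ : SL(2, ℝ)) * P) 0 0 ≠ (P⁻¹ * (γ : SL(2, ℝ)) * P) 1 1 := by
  obtain ⟨P, h01, h10, hne⟩ := exists_diag (trace_gt_of_no_fixed hγ)
  have key : ∀ ζ ∈ Subgroup.centralizer ({γ} : Set Γ),
      (P⁻¹ * (ζ : SL(2, ℝ)) * P) 0 1 = 0 ∧ (P⁻¹ * (ζ : SL(2, ℝ)) * P) 1 0 = 0 := fun ζ hζ => by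
    have hc : ((γ : SL(2, ℝ))) * (ζ : SL(2, ℝ)) = (ζ : SL(2, ℝ)) * (γ : SL(2, ℝ)) :=
      congrArg Subtype.val (Subgroup.mem_centralizer_iff.1 hζ γ rfl)
    set D := P⁻¹ * (γ : SL(2, ℝ)) * P
    set M := P⁻¹ * (ζ : SL(2, ℝ)) * P
    have hDM : D * M = M * D := by
      calc D * M = P⁻¹ * ((γ : SL(2, ℝ)) * ζ) * P := by simp only [D, M]; group
        _ = P⁻¹ * ((ζ : SL(2, ℝ)) * γ) * P := by rw [hc]
        _ = M * D := by simp only [D, M]; group
    have e01 := congrArg (fun A : SL(2, ℝ) => A 0 1) hDM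
    have e10 := congrArg (fun A : SL(2, ℝ) => A 1 0) hDM
    simp [Matrix.mul_apply, Fin.sum_univ_two, h01, h10] at e01 e10
    exact ⟨mul_right_cancel₀ (sub_ne_zero.2 hne) (show M 0 1 * (D 0 0 - D 1 1) = 0 * _ by
      linear_combination e01), mul_right_cancel₀ (sub_ne_zero.2 hne)
        (show M 1 0 * (D 0 0 - D 1 1) = 0 * _ by linear_combination -e10)⟩
  exact ⟨P, ⟨fun ζ h => (key ζ h).1, fun ζ h => (key ζ h).2⟩, hne⟩

/-- The translation length along the axis, with a sign. -/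
def axisShift (P : SL(2, ℝ)) (ζ : Γ) : ℝ := Real.log ((P⁻¹ * (ζ : SL(2, ℝ)) * P) 0 0 ^ 2)

variable {Z : Subgroup Γ} {P : SL(2, ℝ)}

theorem Axis.mul_eq_one (hA : Axis Z P) {ζ : Γ} (hζ : ζ ∈ Z) :
    (P⁻¹ * (ζ : SL(2, ℝ)) * P) 0 0 * (P⁻¹ * (ζ : SL(2, ℝ)) * P) 1 1 = 1 := by
  have h := det_entries (P⁻¹ * (ζ : SL(2, ℝ)) * P)
  rwa [hA.upper ζ hζ, zero_mul, sub_zero] at h

theorem Axis.shift_mul (hA : Axis Z P) {ζ η : Γ} (hζ : ζ ∈ Z) (hη : η ∈ Z) :
    axisShift P (ζ * η) = axisShift P ζ + axisShift P η := by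
  have e : P⁻¹ * ((ζ * η : Γ) : SL(2, ℝ)) * P =
      (P⁻¹ * (ζ : SL(2, ℝ)) * P) * (P⁻¹ * (η : SL(2, ℝ)) * P) := by
    rw [Subgroup.coe_mul]
    group
  have h1 := left_ne_zero_of_mul_eq_one (hA.mul_eq_one hζ)
  have h2 := left_ne_zero_of_mul_eq_one (hA.mul_eq_one hη)
  rw [axisShift, e, axisShift, axisShift,
    ← Real.log_mul (pow_ne_zero 2 h1) (pow_ne_zero 2 h2), ← mul_pow]
  congr 2
  rw [Matrix.SpecialLinearGroup.coe_mul, Matrix.mul_apply, Fin.sum_univ_two, hA.upper ζ hζ,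
    zero_mul, add_zero]

theorem Axis.shift_one : axisShift P (1 : Γ) = 0 := by simp [axisShift]

theorem Axis.shift_inv (hA : Axis Z P) {ζ : Γ} (hζ : ζ ∈ Z) :
    axisShift P ζ⁻¹ = -axisShift P ζ := by
  have h := hA.shift_mul (inv_mem hζ) hζ
  rw [inv_mul_cancel, Axis.shift_one] at h
  linarith

theorem Axis.eq_one_or_neg_one (hA : Axis Z P) {ζ : Γ} (hζ : ζ ∈ Z) (h : axisShift P ζ = 0) :
    (ζ : SL(2, ℝ)) = 1 ∨ (ζ : SL(2, ℝ)) = -1 := by
  have h1 := hA.mul_eq_one hζ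
  have hne := left_ne_zero_of_mul_eq_one h1
  have hsq : (P⁻¹ * (ζ : SL(2, ℝ)) * P) 0 0 ^ 2 = 1 :=
    (Real.log_eq_zero.1 h).elim (fun h0 => absurd h0 (pow_ne_zero 2 hne))
      (·.resolve_right fun h0 => by nlinarith)
  have hback : (ζ : SL(2, ℝ)) = P * (P⁻¹ * (ζ : SL(2, ℝ)) * P) * P⁻¹ := by group
  rcases sq_eq_one_iff.1 hsq with e | e <;> rw [e] at h1
  · left
    rw [hback, show P⁻¹ * (ζ : SL(2, ℝ)) * P = 1 from
      sl_ext (by simpa using e) (by simpa using hA.upper ζ hζ) (by simpa using hA.lower ζ hζ)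
        (by simpa using h1), mul_one, mul_inv_cancel]
  · right
    have h11 : (P⁻¹ * (ζ : SL(2, ℝ)) * P) 1 1 = -1 := by linarith
    rw [hback, show P⁻¹ * (ζ : SL(2, ℝ)) * P = -1 from
      sl_ext (by simpa using e) (by simpa using hA.upper ζ hζ) (by simpa using hA.lower ζ hζ)
        (by simpa using h11), mul_neg, mul_one, neg_mul, mul_inv_cancel]

/-- **The centraliser of a hyperbolic element.** -/
theorem centralizer_cyclic {γ : Γ} (hγ : ∀ p : ℍ, γ • p ≠ p) :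
    ∃ ε ∈ Subgroup.centralizer ({γ} : Set Γ), (∀ n : ℤ, ε ^ n = 1 → n = 0) ∧
      ∀ ζ ∈ Subgroup.centralizer ({γ} : Set Γ), ∃ n : ℤ,
        (ζ : SL(2, ℝ)) = (ε : SL(2, ℝ)) ^ n ∨ (ζ : SL(2, ℝ)) = -(ε : SL(2, ℝ)) ^ n := by
  obtain ⟨P, hA, hne⟩ := exists_axis hγ
  set Z := Subgroup.centralizer ({γ} : Set Γ)
  let S : AddSubgroup ℝ :=
    { carrier := axisShift P '' (Z : Set Γ)
      zero_mem' := ⟨1, one_mem Z, Axis.shift_one⟩
      add_mem' := by
        rintro _ _ ⟨a, ha, rfl⟩ ⟨b, hb, rfl⟩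
        exact ⟨a * b, mul_mem ha hb, hA.shift_mul ha hb⟩
      neg_mem' := by
        rintro _ ⟨a, ha, rfl⟩
        exact ⟨a⁻¹, inv_mem ha, hA.shift_inv ha⟩ }
  have hfin : ((S : Set ℝ) ∩ Ioo (-1) 1).Finite := by
    refine ((finite_normSqSL_le Γ (normSqSL P * (2 * Real.exp 1) * normSqSL P⁻¹)).image
      (axisShift P)).subset ?_
    rintro _ ⟨⟨ζ, hζ, rfl⟩, hlo, hhi⟩
    refine ⟨ζ, ?_, rfl⟩
    set M := P⁻¹ * (ζ : SL(2, ℝ)) * P
    have h1 := hA.mul_eq_one hζ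
    have hne0 := left_ne_zero_of_mul_eq_one h1
    have hpos : 0 < M 0 0 ^ 2 := by positivity
    have ha : M 0 0 ^ 2 ≤ Real.exp 1 := (Real.log_le_iff_le_exp hpos).1 hhi.le
    have hd : M 1 1 ^ 2 ≤ Real.exp 1 := by
      have hinv : M 1 1 ^ 2 = (M 0 0 ^ 2)⁻¹ := by
        rw [← inv_pow, eq_inv_of_mul_eq_one_right h1]
      rw [hinv, ← Real.log_le_iff_le_exp (inv_pos.2 hpos), Real.log_inv]
      have e : Real.log (M 0 0 ^ 2) = axisShift P ζ := rfl
      linarith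
    have hM : normSqSL M ≤ 2 * Real.exp 1 := by
      rw [normSqSL_eq]
      simp only [matSq, Fin.sum_univ_two]
      nlinarith [hA.upper ζ hζ, hA.lower ζ hζ]
    show normSqSL (ζ : SL(2, ℝ)) ≤ _
    rw [show (ζ : SL(2, ℝ)) = P * M * P⁻¹ by simp only [M]; group]
    refine (normSqSL_mul_le _ _).trans (mul_le_mul_of_nonneg_right ?_
      (le_trans zero_le_two (two_le_normSqSL _)))
    exact (normSqSL_mul_le _ _).trans (mul_le_mul_of_nonneg_left hM
      (le_trans zero_le_two (two_le_normSqSL _)))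
  have hγZ : γ ∈ Z := Subgroup.mem_centralizer_iff.2 fun x hx => by rw [Set.mem_singleton_iff.1 hx]
  rcases S.dense_or_cyclic with hd | ⟨a, ha⟩
  · exfalso
    have hsub : Ioo (-1 : ℝ) 1 ⊆ closure ((S : Set ℝ) ∩ Ioo (-1) 1) := by
      rw [inter_comm]
      exact hd.open_subset_closure_inter isOpen_Ioo
    rw [hfin.isClosed.closure_eq] at hsub
    exact (Ioo_infinite (by norm_num : (-1 : ℝ) < 1)) (hfin.subset hsub)
  · rw [← AddSubgroup.zmultiples_eq_closure] at ha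
    have haS : a ∈ S := ha ▸ AddSubgroup.mem_zmultiples a
    obtain ⟨ε, hε, hεa⟩ := haS
    have hpow : ∀ n : ℤ, axisShift P (ε ^ n) = n * a := fun n => by
      induction n using Int.induction_on with
      | zero => simp [Axis.shift_one]
      | succ k ih =>
        rw [zpow_add_one, hA.shift_mul (zpow_mem hε _) hε, ih, hεa]
        push_cast
        ring
      | pred k ih =>
        rw [zpow_sub_one, hA.shift_mul (zpow_mem hε _) (inv_mem hε), ih, hA.shift_inv hε, hεa]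
        push_cast
        ring
    refine ⟨ε, hε, fun n hn => ?_, fun ζ hζ => ?_⟩
    · have h0 := hpow n
      rw [hn, Axis.shift_one] at h0
      have ha0 : a ≠ 0 := fun e => by
        have hmem : axisShift P γ ∈ S := ⟨γ, hγZ, rfl⟩
        rw [ha, e, AddSubgroup.zmultiples_zero_eq_bot, AddSubgroup.mem_bot] at hmem
        rcases hA.eq_one_or_neg_one hγZ hmem with h | h <;> exact hne (by rw [h]; simp)
      exact_mod_cast (mul_eq_zero.1 h0.symm).resolve_right ha0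
    · obtain ⟨n, hn⟩ : axisShift P ζ ∈ AddSubgroup.zmultiples a := ha ▸ (⟨ζ, hζ, rfl⟩ : _ ∈ S)
      have hmem := mul_mem hζ (inv_mem (zpow_mem hε n))
      have h0 : axisShift P (ζ * (ε ^ n)⁻¹) = 0 := by
        rw [hA.shift_mul hζ (inv_mem (zpow_mem hε n)), hA.shift_inv (zpow_mem hε n), hpow,
          ← show n • a = axisShift P ζ from hn, zsmul_eq_mul]
        ring
      refine ⟨n, ?_⟩
      have hsplit : (ζ : SL(2, ℝ)) = ((ζ * (ε ^ n)⁻¹ : Γ) : SL(2, ℝ)) * (ε : SL(2, ℝ)) ^ n := by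
        rw [Subgroup.coe_mul, Subgroup.coe_inv, Subgroup.coe_zpow, inv_mul_cancel_right]
      rcases hA.eq_one_or_neg_one hmem h0 with h | h <;> rw [h] at hsplit
      · exact .inl (by rw [hsplit, one_mul])
      · exact .inr (by rw [hsplit, neg_mul, one_mul])

end FA.CocompactTrace

end
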