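import Fermat.Agent.CocompactTrace.Series

/-!
# The elliptic terms

The sum over the conjugates of a rotation of order dividing the index `e` is exactly
`η ^ m / (e t (1 - η))` for `t` elements acting trivially, up to the factor `4 π / (2 m - 1)`.
-/

set_option autoImplicit false
set_option linter.unusedSectionVars false
set_option linter.style.haveILetI false

noncomputable section

open MeasureTheory Set Filter Topology Complex
open UpperHalfPlane hiding I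
open FA.CocompactForms FA.CocompactFunctions FA.CocompactDegree FA.CocompactGaussBonnet
open scoped MatrixGroups Manifold Real ComplexConjugate ENNReal

namespace FA.CocompactTrace

/-- A point of the half plane in the disc centred at another. -/
theorem exists_cay_eq (p z : ℍ) :
    ∃ (w : ℂ) (hw : ‖w‖ < 1), z = p.toSL2R • ⟨cay w, im_cay_pos hw⟩ := by
  refine ⟨cayInv (p.toSL2R⁻¹ • z : ℍ), norm_cayInv_lt_one _, ?_⟩
  rw [← inv_smul_eq_iff]
  exact UpperHalfPlane.ext (cay_cayInv _).symm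

theorem qFun_sq_eq_of_eta {g g' : SL(2, ℝ)} {p : ℍ} (hg : g • p = p) (hg' : g' • p = p)
    (he : etaOf g p = etaOf g' p) (z : ℍ) : qFun g z ^ 2 = qFun g' z ^ 2 := by
  obtain ⟨w, hw, rfl⟩ := exists_cay_eq p z
  rw [qFun_cay hg hw, qFun_cay hg' hw, he]

/-- **The integral of a rotation.** -/
theorem integral_qFun_rot {g : SL(2, ℝ)} {p : ℍ} (hg : g • p = p) (h1 : etaOf g p ≠ 1) (m : ℕ) :
    ∫ z : ℍ, qFun g z ^ (2 * (m + 1)) =
      4 * π / (2 * (m : ℂ) + 1) * (etaOf g p ^ (m + 1) / (1 - etaOf g p)) := by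
  set η := etaOf g p
  have hη : ‖η‖ = 1 := norm_etaOf hg
  rw [← (measurePreserving_sl p.toSL2R).integral_comp (measurableEmbedding_sl _), integral_cay]
  have hint : ∫ w in Metric.ball (0 : ℂ) 1,
      (4 / (1 - ‖w‖ ^ 2) ^ 2 : ℝ) • qFun g (p.toSL2R • ofComplex (cay w)) ^ (2 * (m + 1)) =
        4 * η ^ (m + 1) * ∫ w in Metric.ball (0 : ℂ) 1, rotKernel η (2 * m) w := by
    rw [← integral_const_mul]
    refine setIntegral_congr_fun measurableSet_ball fun w hw => ?_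
    have hw' := mem_ball_zero_iff.1 hw
    simp only [ofComplex_apply_of_im_pos (im_cay_pos hw')]
    rw [pow_mul, qFun_cay hg hw', mul_pow, rotKernel, Complex.real_smul]
    have hlt : (1 : ℂ) - ((‖w‖ ^ 2 : ℝ) : ℂ) ≠ 0 := by
      rw [← ofReal_one, ← ofReal_sub]
      exact ofReal_ne_zero.2 (by nlinarith [norm_nonneg w])
    have hne := one_sub_mul_ne_zero hη h1 (sq_nonneg ‖w‖)
    push_cast at hlt hne ⊢
    rw [← pow_mul, div_pow, show 2 * (m + 1) = 2 * m + 2 by ring,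
      pow_add (1 - (‖w‖ : ℂ) ^ 2)]
    simp only [η] at hne ⊢
    field_simp
  rw [hint, integral_rotKernel hη h1]
  have h2 : (2 * (m : ℂ) + 1) ≠ 0 := by exact_mod_cast Nat.succ_ne_zero (2 * m)
  push_cast
  field_simp

variable {Γ : Subgroup SL(2, ℝ)} [DiscreteTopology Γ] {ψ : ℂ → ℝ} {G : Finset Γ}

theorem etaOf_ne_one {p : ℍ} {γ : Γ} (hγp : γ • p = p) (hγ : γ ∉ triv Γ) :
    etaOf (γ : SL(2, ℝ)) p ≠ 1 := fun h =>
  hγ ((mem_triv Γ).2 fun z => smul_eq_of_etaOf_eq_one (g := (γ : SL(2, ℝ))) hγp h z)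

theorem qFun_sq_stab {p : ℍ} (γ ζ : MulAction.stabilizer Γ p) (z : ℍ) :
    qFun ((γ : Γ) : SL(2, ℝ)) (ζ • z) ^ 2 = qFun ((γ : Γ) : SL(2, ℝ)) z ^ 2 := by
  show qFun _ (((ζ : Γ) : SL(2, ℝ)) • z) ^ 2 = _
  rw [qFun_smul]
  have he : etaHom Γ p (ζ⁻¹ * γ * ζ) = etaHom Γ p γ := by
    rw [map_mul, map_mul, map_inv, mul_comm, mul_inv_cancel_left]
  refine qFun_sq_eq_of_eta (p := p) ?_ γ.2 ?_ z
  · exact (ζ⁻¹ * γ * ζ).2
  · simpa [etaHom] using congrArg (fun u : ℂˣ => (u : ℂ)) he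

/-- An element fixing a point has a stabiliser coset for each of its conjugates. -/
theorem conj_out_injective {p : ℍ} {γ : Γ} (hγp : γ • p = p) (hγ : γ ∉ triv Γ) :
    Function.Injective
      fun δ : Γ ⧸ MulAction.stabilizer Γ p => δ.out * γ * δ.out⁻¹ := by
  intro a b h
  have h' : a.out * γ * a.out⁻¹ = b.out * γ * b.out⁻¹ := h
  have hp : (a.out⁻¹ * b.out) • p = p := by
    refine fixSet_subsingleton Γ hγ ?_ hγp
    show γ • (a.out⁻¹ * b.out) • p = _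
    rw [← mul_smul, show γ * (a.out⁻¹ * b.out) =
      a.out⁻¹ * (a.out * γ * a.out⁻¹) * b.out by group, h',
      show a.out⁻¹ * (b.out * γ * b.out⁻¹) * b.out = a.out⁻¹ * b.out * γ by group, mul_smul, hγp]
  rw [← QuotientGroup.out_eq' a, ← QuotientGroup.out_eq' b, QuotientGroup.eq]
  exact hp

/-- **The conjugates of any rotation.** -/
theorem tsum_conj_rot (h : IsPartition Γ ψ G) (Z : Subgroup Γ) [Finite Z] {g : SL(2, ℝ)} {p : ℍ}
    (hgp : g • p = p) (h1 : etaOf g p ≠ 1) {m : ℕ}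
    (hinv : ∀ ζ : Z, ∀ z : ℍ, qFun g (ζ • z) ^ 2 = qFun g z ^ 2)
    (hs : Summable fun δ : Γ ⧸ Z => ∫ z : ℍ, ‖ψ z •
      qFun ((δ.out : SL(2, ℝ)) * g * (δ.out : SL(2, ℝ))⁻¹) z ^ (2 * (m + 1))‖) :
    (Nat.card Z : ℂ) * ∑' δ : Γ ⧸ Z,
        orbAt ψ (2 * (m + 1)) ((δ.out : SL(2, ℝ)) * g * (δ.out : SL(2, ℝ))⁻¹) =
      4 * π / (2 * (m : ℂ) + 1) * (etaOf g p ^ (m + 1) / (1 - etaOf g p)) := by
  haveI := Fintype.ofFinite Z
  obtain ⟨hI, hsum⟩ := tsum_conj_orbAt Z h (2 * (m + 1)) g hs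
  rw [hsum, ← integral_qFun_rot hgp h1 m]
  set F : ℍ → ℂ := fun z => qFun g z ^ (2 * (m + 1))
  have hF : ∀ ζ : Z, ∀ z, F (ζ • z) = F z := fun ζ z => by
    simp only [F, pow_mul]
    rw [hinv ζ z]
  set u : ℍ → ℂ := fun z => cosetSum ψ Z z • F z
  have hshift : ∀ ζ : Z, Integrable (fun z => cosetSum ψ Z (ζ • z) • F z) ∧
      ∫ z : ℍ, cosetSum ψ Z (ζ • z) • F z = ∫ z : ℍ, u z := fun ζ => by
    have e : (fun z => cosetSum ψ Z (ζ • z) • F z) =
        fun z : ℍ => u (((ζ : Γ) : SL(2, ℝ)) • z) := funext fun z => by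
      show _ = cosetSum ψ Z (ζ • z) • F (ζ • z)
      rw [hF]
    rw [e]
    obtain ⟨d, hd⟩ : ∃ d : SL(2, ℝ), ((ζ : Γ) : SL(2, ℝ)) = d := ⟨_, rfl⟩
    obtain ⟨v, hv⟩ : ∃ v : ℍ → ℂ, u = v := ⟨_, rfl⟩
    have hI' : Integrable u := hI
    rw [hv] at hI' ⊢
    rw [hd]
    exact ⟨(MeasurePreserving.integrable_comp_emb (g := v) (measurePreserving_sl d)
      (measurableEmbedding_sl d)).2 hI',
      (measurePreserving_sl d).integral_comp (measurableEmbedding_sl d) v⟩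
  have hone : ∀ z : ℍ, ∑ ζ : Z, cosetSum ψ Z (ζ • z) = 1 := fun z => by
    simp only [cosetSum]
    rw [← ENNReal.toReal_sum fun ζ _ => ((cosetSumE_le_one Z h _).trans_lt ENNReal.one_lt_top).ne,
      ← tsum_fintype (L := SummationFilter.unconditional _) fun ζ : Z => cosetSumE ψ Z (ζ • z),
      tsum_cosetSumE Z h z, ENNReal.toReal_one]
  calc (Nat.card Z : ℂ) * ∫ z : ℍ, u z
      = ∑ ζ : Z, ∫ z : ℍ, cosetSum ψ Z (ζ • z) • F z := by
        rw [Finset.sum_congr rfl fun ζ _ => (hshift ζ).2, Finset.sum_const, Finset.card_univ,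
          nsmul_eq_mul, Nat.card_eq_fintype_card]
    _ = ∫ z : ℍ, F z := by
        rw [← integral_finsetSum _ fun ζ _ => (hshift ζ).1]
        refine integral_congr_ae (.of_forall fun z => ?_)
        simp only [← Finset.sum_smul, hone, one_smul]

/-- **The conjugates of a rotation.** -/
theorem tsum_conj_elliptic (h : IsPartition Γ ψ G) {p : ℍ} {γ : Γ} (hγp : γ • p = p)
    (hγ : γ ∉ triv Γ) {m : ℕ} (hm : 1 ≤ m) :
    (Nat.card (MulAction.stabilizer Γ p) : ℂ) *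
        ∑' δ : Γ ⧸ MulAction.stabilizer Γ p,
          orbTerm ψ (2 * (m + 1)) (δ.out * γ * δ.out⁻¹) =
      4 * π / (2 * (m : ℂ) + 1) * (etaOf (γ : SL(2, ℝ)) p ^ (m + 1) /
        (1 - etaOf (γ : SL(2, ℝ)) p)) := by
  simpa [orbTerm, orbAt] using tsum_conj_rot h (MulAction.stabilizer Γ p)
    (g := (γ : SL(2, ℝ))) hγp (etaOf_ne_one hγp hγ) (m := m)
    (fun ζ z => qFun_sq_stab ⟨γ, hγp⟩ ζ z)
    (((summable_norm_orbTerm h (k := 2 * (m + 1)) (by omega)).comp_injective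
      (conj_out_injective hγp hγ)).congr fun δ => by simp)

/-- The nontrivial elements with a fixed point. -/
def rotSet (Γ : Subgroup SL(2, ℝ)) : Set Γ := {γ | γ ∉ triv Γ ∧ ∃ p : ℍ, γ • p = p}

variable [CompactSpace (SL(2, ℝ) ⧸ Γ)]

/-- The elliptic orbits with a nontrivial rotation. -/
abbrev RotIndex (Γ : Subgroup SL(2, ℝ)) [DiscreteTopology Γ] :=
  Σ x : {x : Orb Γ // ramIndex Γ x.out ≠ 1},
    {γ : MulAction.stabilizer Γ x.1.out // (γ : Γ) ∉ triv Γ}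

/-- The conjugates of the rotations at the chosen points. -/
def rotConj (a : Σ x : RotIndex Γ, Γ ⧸ MulAction.stabilizer Γ x.1.1.out) : rotSet Γ :=
  ⟨a.2.out * (a.1.2.1 : Γ) * a.2.out⁻¹, fun h => a.1.2.2 ((mem_triv Γ).2 fun z => by
      have := (mem_triv Γ).1 h (a.2.out • z)
      rwa [mul_smul, mul_smul, inv_smul_smul, smul_left_cancel_iff] at this),
    a.2.out • a.1.1.1.out, by
      rw [mul_smul, mul_smul, inv_smul_smul]
      exact congrArg (a.2.out • ·) a.1.2.1.2⟩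

theorem rotConj_bijective : Function.Bijective (rotConj : _ → rotSet Γ) := by
  refine ⟨?_, fun ⟨γ, hγ, q, hq⟩ => ?_⟩
  · rintro ⟨⟨x, γ, hγ⟩, a⟩ ⟨⟨y, δ, hδ⟩, b⟩ h
    have h' : a.out * (γ : Γ) * a.out⁻¹ = b.out * (δ : Γ) * b.out⁻¹ := congrArg Subtype.val h
    have hne : a.out * (γ : Γ) * a.out⁻¹ ∉ triv Γ := (rotConj ⟨⟨x, γ, hγ⟩, a⟩).2.1
    have hpt : a.out • x.1.out = b.out • y.1.out := by
      refine fixSet_subsingleton Γ hne ?_ ?_
      · show _ • _ = _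
        rw [mul_smul, mul_smul, inv_smul_smul]
        exact congrArg (a.out • ·) γ.2
      · show _ • _ = _
        rw [h', mul_smul, mul_smul, inv_smul_smul]
        exact congrArg (b.out • ·) δ.2
    obtain rfl : x = y := by
      refine Subtype.ext ?_
      rw [← x.1.out_eq', ← y.1.out_eq']
      refine Quotient.sound' ⟨a.out⁻¹ * b.out, ?_⟩
      show (a.out⁻¹ * b.out) • y.1.out = x.1.out
      rw [mul_smul, ← hpt, inv_smul_smul]
    obtain rfl : a = b := by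
      rw [← QuotientGroup.out_eq' a, ← QuotientGroup.out_eq' b, QuotientGroup.eq]
      show (a.out⁻¹ * b.out) • x.1.out = x.1.out
      rw [mul_smul, ← hpt, inv_smul_smul]
    obtain rfl : γ = δ := Subtype.ext (mul_left_cancel (mul_right_cancel h'))
    rfl
  · obtain ⟨δ, hδ⟩ : ∃ δ : Γ, δ • (Quotient.mk'' q : Orb Γ).out = q :=
      MulAction.orbitRel_apply.1 (Quotient.exact (Quotient.out_eq (Quotient.mk'' q : Orb Γ)).symm)
    set p := (Quotient.mk'' q : Orb Γ).out with hp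
    obtain ⟨s, hs⟩ := QuotientGroup.mk_out_eq_mul (MulAction.stabilizer Γ p) δ
    set d := (QuotientGroup.mk δ : Γ ⧸ MulAction.stabilizer Γ p).out
    have hdp : d • p = q := by rw [hs, mul_smul, show (s : Γ) • p = p from s.2, hδ]
    have hfix : (d⁻¹ * γ * d) • p = p := by rw [mul_smul, mul_smul, hdp, hq, ← hdp, inv_smul_smul]
    have htriv : d⁻¹ * γ * d ∉ triv Γ := fun h => hγ ((mem_triv Γ).2 fun z => by
      have := (mem_triv Γ).1 h (d⁻¹ • z)
      rwa [mul_smul, mul_smul, smul_inv_smul, smul_left_cancel_iff] at this)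
    refine ⟨⟨⟨⟨Quotient.mk'' q, ?_⟩, ⟨⟨d⁻¹ * γ * d, hfix⟩, htriv⟩⟩, QuotientGroup.mk δ⟩,
      Subtype.ext ?_⟩
    · rw [ramIndex_ne_one_iff]
      exact ⟨d⁻¹ * γ * d, hfix, htriv⟩
    · show d * (d⁻¹ * γ * d) * d⁻¹ = γ
      group

/-- **All elliptic terms.** -/
theorem tsum_rotSet (h : IsPartition Γ ψ G) {m : ℕ} (hm : 1 ≤ m) :
    ∑' γ : rotSet Γ, orbTerm ψ (2 * (m + 1)) (γ : Γ) =
      4 * π / (2 * (m : ℂ) + 1) * ellipticSum Γ (m + 1) := by
  classical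
  haveI : Finite {x : Orb Γ // ramIndex Γ x.out ≠ 1} := (finite_elliptic Γ).to_subtype
  haveI := Fintype.ofFinite {x : Orb Γ // ramIndex Γ x.out ≠ 1}
  haveI : ∀ x : Orb Γ, Fintype (MulAction.stabilizer Γ x.out) := fun x => Fintype.ofFinite _
  have hs : Summable fun a : Σ x : RotIndex Γ, Γ ⧸ MulAction.stabilizer Γ x.1.1.out =>
      orbTerm ψ (2 * (m + 1)) (rotConj a : Γ) :=
    ((summable_orbTerm h (by omega)).subtype (rotSet Γ)).comp_injective rotConj_bijective.injective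
  refine ((Equiv.ofBijective _ rotConj_bijective).tsum_eq
    fun γ : rotSet Γ => orbTerm ψ (2 * (m + 1)) (γ : Γ)).symm.trans ?_
  simp only [Equiv.ofBijective_apply]
  rw [hs.tsum_sigma, tsum_fintype, Fintype.sum_sigma, ellipticSum, Finset.mul_sum,
    Finset.sum_subtype (finite_elliptic Γ).toFinset fun x => (finite_elliptic Γ).mem_toFinset]
  refine Finset.sum_congr rfl fun x _ => ?_
  set S := MulAction.stabilizer Γ x.1.out
  have hterm : ∀ γ : {γ : S // (γ : Γ) ∉ triv Γ},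
      ∑' δ : Γ ⧸ S, orbTerm ψ (2 * (m + 1)) (δ.out * (γ.1 : Γ) * δ.out⁻¹) =
        4 * π / (2 * (m : ℂ) + 1) * (etaOf ((γ.1 : Γ) : SL(2, ℝ)) x.1.out ^ (m + 1) /
          (1 - etaOf ((γ.1 : Γ) : SL(2, ℝ)) x.1.out)) / Nat.card S := fun γ => by
    rw [← tsum_conj_elliptic h γ.1.2 γ.2 hm, mul_div_cancel_left₀]
    exact Nat.cast_ne_zero.2 Nat.card_pos.ne'
  refine (Finset.sum_congr rfl fun γ _ => hterm γ).trans ?_
  rw [← Finset.sum_div, ← Finset.mul_sum, mul_div_assoc]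
  congr 1
  rw [← Finset.sum_subtype (Finset.univ.filter fun γ : S => (γ : Γ) ∉ triv Γ) (by simp)
    (fun γ : S => etaOf ((γ : Γ) : SL(2, ℝ)) x.1.out ^ (m + 1) /
      (1 - etaOf ((γ : Γ) : SL(2, ℝ)) x.1.out)), Finset.sum_filter_of_ne,
    sum_stabilizer, ← ramIndex_mul, Nat.cast_mul, mul_comm (trivCard Γ : ℂ),
    mul_div_mul_right _ _ (Nat.cast_ne_zero.2 (trivCard_pos Γ).ne')]
  intro γ _ hne htriv
  refine hne ?_
  rw [show etaOf ((γ : Γ) : SL(2, ℝ)) x.1.out = 1 from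
    congrArg Units.val ((etaHom_eq_one_iff Γ _ γ).2 htriv)]
  simp

end FA.CocompactTrace

end
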