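import Fermat.Agent.CocompactTrace.Hyperbolic

/-!
# The dimension in every weight at least four

The trivial elements give the area, the elliptic ones the sum over the elliptic orbits, the
hyperbolic ones nothing.
-/

set_option autoImplicit false
set_option linter.unusedSectionVars false
set_option linter.style.haveILetI false

noncomputable section

open MeasureTheory Set Filter Topology Complex
open UpperHalfPlane hiding I
open FA.CocompactForms FA.CocompactFunctions FA.CocompactDegree FA.CocompactGaussBonnet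
open scoped MatrixGroups Manifold Real

namespace FA.CocompactTrace

variable (Γ : Subgroup SL(2, ℝ)) [DiscreteTopology Γ] [CompactSpace (SL(2, ℝ) ⧸ Γ)]

/-- **The trace formula in weight `2 (m + 1)`.** -/
theorem finrank_exact {m : ℕ} (hm : 1 ≤ m) :
    (Module.finrank ℂ (forms Γ ((2 * (m + 1) : ℕ) : ℤ)) : ℂ) =
      (2 * ((m + 1 : ℕ) : ℂ) - 1) * area Γ / (4 * π) + ellipticSum Γ (m + 1) := by
  classical
  obtain ⟨ψ, G, h⟩ := exists_partition Γ
  have hk : 4 ≤ 2 * (m + 1) := by omega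
  set f : Γ → ℂ := orbTerm ψ (2 * (m + 1))
  have hs : Summable f := summable_orbTerm h (by omega)
  haveI : Finite (triv Γ) := (Nat.card_pos_iff.1 (trivCard_pos Γ)).2
  haveI := Fintype.ofFinite (triv Γ)
  have htriv : ∀ γ : (triv Γ : Set Γ), f γ = ((∫ z : ℍ, ψ z : ℝ) : ℂ) := fun γ => by
    rw [← integral_complex_ofReal]
    refine integral_congr_ae (.of_forall fun z => ?_)
    simp only
    rw [pow_mul, qFun_triv (g := ((γ : Γ) : SL(2, ℝ))) ((mem_triv Γ).1 γ.2), one_pow,
      Complex.real_smul, mul_one]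
  have hsplit : ∀ γ : Γ, f γ = (triv Γ : Set Γ).indicator f γ + (rotSet Γ).indicator f γ +
      (hypSet Γ).indicator f γ := fun γ => by
    by_cases h1 : γ ∈ triv Γ
    · have h2 : γ ∉ rotSet Γ := fun h => h.1 h1
      have h3 : γ ∉ hypSet Γ := fun h => h UpperHalfPlane.I ((mem_triv Γ).1 h1 _)
      simp [h1, h2, h3]
    · by_cases h2 : ∃ p : ℍ, γ • p = p
      · have h2' : γ ∈ rotSet Γ := ⟨h1, h2⟩
        have h3 : γ ∉ hypSet Γ := fun h => h2.elim h
        simp [h1, h2', h3]
      · have h2' : γ ∉ rotSet Γ := fun h => h2 h.2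
        have h3 : γ ∈ hypSet Γ := fun p hp => h2 ⟨p, hp⟩
        simp [h1, h2', h3]
  have htsum : ∑' γ : Γ, f γ = trivCard Γ * ((∫ z : ℍ, ψ z : ℝ) : ℂ) +
      4 * π / (2 * (m : ℂ) + 1) * ellipticSum Γ (m + 1) := by
    rw [tsum_congr hsplit, ((hs.indicator _).add (hs.indicator _)).tsum_add (hs.indicator _),
      (hs.indicator _).tsum_add (hs.indicator _), ← tsum_subtype, ← tsum_subtype, ← tsum_subtype,
      tsum_rotSet h hm, tsum_hypSet h hm, tsum_congr htriv, add_zero, tsum_fintype,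
      Finset.sum_const, Finset.card_univ, nsmul_eq_mul, ← Nat.card_eq_fintype_card]
    rfl
  rw [finrank_eq_tsum h hk, htsum, area_eq Γ h]
  have h2 : (2 * (m : ℂ) + 1) ≠ 0 := by exact_mod_cast Nat.succ_ne_zero (2 * m)
  have hπ : (π : ℂ) ≠ 0 := ofReal_ne_zero.2 Real.pi_ne_zero
  push_cast
  field_simp
  ring

/-- **The dimension in every weight at least four.** -/
theorem exists_genus_exact :
    ∃ g : ℕ, area Γ = 2 * π * (2 * (g : ℝ) - 2 + ellipticDefect Γ) ∧ ∀ m : ℕ, 2 ≤ m →
      (Module.finrank ℂ (forms Γ ((2 * m : ℕ) : ℤ)) : ℤ) =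
        (2 * (m : ℤ) - 1) * ((g : ℤ) - 1) + floorSum Γ m := by
  obtain ⟨g, hg, -⟩ := exists_genus Γ
  refine ⟨g, hg, fun m hm => ?_⟩
  obtain ⟨n, rfl⟩ : ∃ n, m = n + 1 := ⟨m - 1, by omega⟩
  have h := finrank_exact Γ (m := n) (by omega)
  rw [main_term_eq] at h
  have hc : halfChar Γ = (g : ℝ) - 1 := by
    rw [halfChar, hg]
    field_simp
    ring
  rw [hc] at h
  refine Int.cast_injective (α := ℂ) ?_
  push_cast at h ⊢
  linear_combination h

/-- The genus is determined by the area. -/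
theorem finrank_exact_of_area {g : ℕ}
    (hg : area Γ = 2 * π * (2 * (g : ℝ) - 2 + ellipticDefect Γ)) {m : ℕ} (hm : 2 ≤ m) :
    (Module.finrank ℂ (forms Γ ((2 * m : ℕ) : ℤ)) : ℤ) =
      (2 * (m : ℤ) - 1) * ((g : ℤ) - 1) + floorSum Γ m := by
  obtain ⟨g', hg', h⟩ := exists_genus_exact Γ
  have e : g = g' := by
    have h2 : (0 : ℝ) < 2 * π := by positivity
    have := mul_left_cancel₀ h2.ne' (hg.symm.trans hg')
    exact_mod_cast (show (g : ℝ) = g' by linarith)
  rw [e]
  exact h m hm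

end FA.CocompactTrace

end
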