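import Fermat.Agent.CocompactTrace.Elliptic
import Fermat.Agent.CocompactTrace.Classification
import Mathlib.MeasureTheory.Integral.Prod

/-!
# The hyperbolic terms

In the coordinates `exp (s + i θ)` about the axis the kernel depends on `θ` alone, the average in
`s` of the partition does not depend on `θ`, and the integral in `θ` is zero in weight `≥ 4`.
-/

set_option autoImplicit false
set_option linter.unusedSectionVars false
set_option linter.style.haveILetI false

noncomputable section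

open MeasureTheory Set Filter Topology Complex
open UpperHalfPlane hiding I
open FA.CocompactForms FA.CocompactFunctions FA.CocompactDegree FA.CocompactGaussBonnet
open scoped MatrixGroups Manifold Real ComplexConjugate ENNReal

namespace FA.CocompactTrace

/-! ### Coordinates about the axis -/

/-- The point of angle `θ` and logarithmic radius `s`. -/
def axPt (θ s : ℝ) : ℂ := Complex.exp ((s : ℂ) + (θ : ℂ) * I)

theorem im_axPt {θ : ℝ} (hθ : θ ∈ Ioo 0 π) (s : ℝ) : 0 < (axPt θ s).im := by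
  simp [axPt, Complex.exp_im]
  exact mul_pos (Real.exp_pos _) (Real.sin_pos_of_mem_Ioo hθ)

theorem exp_injOn_strip : InjOn Complex.exp {w : ℂ | w.im ∈ Ioo 0 π} := fun x hx y hy h =>
  Complex.exp_inj_of_neg_pi_lt_of_le_pi (by linarith [hx.1, Real.pi_pos]) hx.2.le
    (by linarith [hy.1, Real.pi_pos]) hy.2.le h

theorem image_exp_strip : Complex.exp '' {w : ℂ | w.im ∈ Ioo 0 π} = {z : ℂ | 0 < z.im} := by
  ext z
  refine ⟨?_, fun hz => ⟨Complex.log z, ?_, Complex.exp_log fun h => by simp [h] at hz⟩⟩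
  · rintro ⟨w, hw, rfl⟩
    show 0 < (Complex.exp w).im
    rw [Complex.exp_im]
    exact mul_pos (Real.exp_pos _) (Real.sin_pos_of_mem_Ioo hw)
  · show (Complex.log z).im ∈ Ioo 0 π
    rw [Complex.log_im]
    refine ⟨lt_of_le_of_ne (Complex.arg_nonneg_iff.2 hz.le) fun h => ?_,
      lt_of_le_of_ne (Complex.arg_le_pi z) fun h => ?_⟩
    · exact absurd (Complex.arg_eq_zero_iff.1 h.symm).2 hz.ne'
    · exact absurd (Complex.arg_eq_pi_iff.1 h).2 hz.ne'

/-- **The integral in the coordinates about the axis.** -/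
theorem integral_axis {G : ℍ → ℂ} (hG : Integrable G) :
    ∫ z : ℍ, G z = ∫ θ in Ioo 0 π, ∫ s : ℝ, (Real.sin θ ^ 2)⁻¹ • G (ofComplex (axPt θ s)) := by
  set g : ℂ → ℂ := {z : ℂ | 0 < z.im}.indicator fun z => (z.im ^ 2)⁻¹ • G (ofComplex z) with hg
  have hg0 : ∀ z : ℂ, z.im ≤ 0 → g z = 0 := fun z hz => indicator_of_notMem (by simpa using hz) _
  have hgz : ∀ z : ℍ, z.im ^ 2 • g z = G z := fun z => by
    simp only [hg, indicator_of_mem (show (z : ℂ) ∈ {z : ℂ | 0 < z.im} from z.im_pos),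
      ofComplex_apply, smul_smul, UpperHalfPlane.coe_im]
    rw [mul_inv_cancel₀ (pow_ne_zero _ z.im_ne_zero), one_smul]
  have h1 : ∫ z : ℍ, G z = ∫ z, g z := by
    rw [integral_uhp hg0]
    simp only [hgz]
  have hgi : Integrable g := (integrable_uhp_iff hg0).2 (by simpa only [hgz] using hG)
  set W : ℂ → ℂ := fun w => (Real.sin w.im ^ 2)⁻¹ • G (ofComplex (Complex.exp w))
  set T : Set ℂ := {w : ℂ | w.im ∈ Ioo 0 π}
  have hT : MeasurableSet T := (isOpen_Ioo.preimage Complex.continuous_im).measurableSet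
  have hd : ∀ w ∈ T, HasFDerivWithinAt Complex.exp
      ((ContinuousLinearMap.toSpanSingleton ℂ (Complex.exp w)).restrictScalars ℝ) T w := fun w _ =>
    ((Complex.hasDerivAt_exp w).hasFDerivAt.restrictScalars ℝ).hasFDerivWithinAt
  have hval : EqOn (fun w => |((ContinuousLinearMap.toSpanSingleton ℂ (Complex.exp w)
      ).restrictScalars ℝ).det| • g (Complex.exp w)) W T := fun w hw => by
    have hpos : 0 < (Complex.exp w).im := by
      rw [Complex.exp_im]
      exact mul_pos (Real.exp_pos _) (Real.sin_pos_of_mem_Ioo hw)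
    simp only [W, hg, det_smulRight, abs_of_nonneg (normSq_nonneg _),
      indicator_of_mem (show Complex.exp w ∈ {z : ℂ | 0 < z.im} from hpos), smul_smul]
    congr 1
    rw [normSq_eq_norm_sq, Complex.norm_exp, Complex.exp_im]
    have hs := (Real.sin_pos_of_mem_Ioo hw).ne'
    have he := (Real.exp_pos w.re).ne'
    field_simp
  have hWint : IntegrableOn W T := ((integrableOn_image_iff_integrableOn_abs_det_fderiv_smul
    volume hT hd exp_injOn_strip g).1 hgi.integrableOn).congr_fun hval hT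
  rw [h1, hg, integral_indicator isOpen_uhp.measurableSet, ← image_exp_strip,
    integral_image_eq_integral_abs_det_fderiv_smul volume hT hd exp_injOn_strip]
  rw [show ∫ w in T, |((ContinuousLinearMap.toSpanSingleton ℂ (Complex.exp w)).restrictScalars
      ℝ).det| • (((Complex.exp w).im ^ 2)⁻¹ • G (ofComplex (Complex.exp w))) = ∫ w in T, W w from
    setIntegral_congr_fun hT fun w hw => by
      rw [← hval hw]
      simp only [hg, indicator_of_mem (show Complex.exp w ∈ {z : ℂ | 0 < z.im} from by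
        rw [← image_exp_strip]; exact ⟨w, hw, rfl⟩)]]
  set V : ℝ × ℝ → ℂ := fun x => W (Complex.measurableEquivRealProd.symm (x.2, x.1))
  set e : ℝ × ℝ ≃ᵐ ℂ := MeasurableEquiv.prodComm.trans Complex.measurableEquivRealProd.symm
  have he : MeasurePreserving e (volume.prod volume) volume :=
    (Complex.volume_preserving_equiv_real_prod.symm _).comp Measure.measurePreserving_swap
  have hpre : e ⁻¹' T = Ioo 0 π ×ˢ univ := by
    ext x
    simp [e, T, Complex.measurableEquivRealProd_symm_apply, MeasurableEquiv.prodComm]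
  have hVint : IntegrableOn V (Ioo 0 π ×ˢ univ) (volume.prod volume) := by
    rw [← hpre]
    exact (he.integrableOn_comp_preimage e.measurableEmbedding).2 hWint
  rw [← he.setIntegral_preimage_emb e.measurableEmbedding W T, hpre]
  refine (setIntegral_prod V hVint).trans ?_
  refine setIntegral_congr_fun measurableSet_Ioo fun θ _ => ?_
  simp only [setIntegral_univ, V, W]
  refine integral_congr_ae (.of_forall fun s => ?_)
  simp [Complex.measurableEquivRealProd_symm_apply, axPt, Complex.mk_eq_add_mul_I]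

/-! ### The kernel -/

/-- The angular factor of the kernel. -/
def axDen (a b θ : ℝ) : ℂ := (a : ℂ) * Real.sin θ - I * b * Real.cos θ

theorem axDen_ne_zero {a b : ℝ} (ha : a ≠ 0) (hb : b ≠ 0) (θ : ℝ) : axDen a b θ ≠ 0 := fun h => by
  simp [axDen, Complex.ext_iff, -ofReal_sin, -ofReal_cos] at h
  have h1 := h.1.resolve_left ha
  have h2 := h.2.resolve_left hb
  have := Real.sin_sq_add_cos_sq θ
  rw [h1, h2] at this
  norm_num at this

theorem qFun_diag {D : SL(2, ℝ)} (h01 : D 0 1 = 0) (h10 : D 1 0 = 0) (hb : D 0 0 - D 1 1 ≠ 0)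
    {θ : ℝ} (hθ : θ ∈ Ioo 0 π) (s : ℝ) : qFun D (ofComplex (axPt θ s)) =
      2 * Real.sin θ / axDen (D 0 0 + D 1 1) (D 0 0 - D 1 1) θ := by
  have hdet := det_entries D
  rw [h01, zero_mul, sub_zero] at hdet
  have ha : D 0 0 + D 1 1 ≠ 0 := fun h => by
    rw [eq_neg_of_add_eq_zero_left h] at hdet
    nlinarith [mul_self_nonneg (D 1 1)]
  rw [ofComplex_apply_of_im_pos (im_axPt hθ s), qFun_eq, coe_smul_eq_mob]
  have hμ : (D 1 1 : ℂ) ≠ 0 := ofReal_ne_zero.2 (right_ne_zero_of_mul_eq_one hdet)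
  simp only [mob, jac, h01, h10, ofReal_zero, zero_mul, zero_add, add_zero]
  rw [mul_sub, mul_div_cancel₀ _ hμ]
  have hx : axPt θ s = (Real.exp s : ℂ) * ((Real.cos θ : ℂ) + (Real.sin θ : ℂ) * I) := by
    rw [axPt, Complex.exp_add, Complex.exp_mul_I, ofReal_exp, ofReal_cos, ofReal_sin]
  simp only [hx, map_mul, map_add, conj_ofReal, conj_I]
  have he : (Real.exp s : ℂ) ≠ 0 := ofReal_ne_zero.2 (Real.exp_pos s).ne'
  have hden := axDen_ne_zero ha hb θ
  rw [eq_div_iff hden, div_mul_eq_mul_div, div_eq_iff]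
  · rw [axDen]
    push_cast
    linear_combination (2 * Complex.exp s * Complex.sin θ *
      ((D 1 1 : ℂ) - D 0 0) * Complex.cos θ) * I_sq
  · have e : (D 0 0 : ℂ) * ((Real.exp s : ℂ) * (Real.cos θ + Real.sin θ * I)) -
        (D 1 1 : ℂ) * ((Real.exp s : ℂ) * (Real.cos θ + Real.sin θ * -I)) =
          I * Real.exp s * axDen (D 0 0 + D 1 1) (D 0 0 - D 1 1) θ := by
      rw [axDen]
      push_cast
      linear_combination (Complex.exp s * ((D 0 0 : ℂ) - D 1 1) * Complex.cos θ) * I_sq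
    rw [e]
    exact mul_ne_zero (mul_ne_zero I_ne_zero he) hden

/-- **The integral in the angle vanishes.** -/
theorem integral_angle_zero {a b : ℝ} (ha : a ≠ 0) (hb : b ≠ 0) (m : ℕ) :
    ∫ θ in Ioo 0 π, (Real.sin θ ^ 2)⁻¹ •
      (2 * (Real.sin θ : ℂ) / axDen a b θ) ^ (2 * (m + 1)) = 0 := by
  set C : ℂ := 2 ^ (2 * (m + 1)) / ((2 * (m : ℂ) + 1) * (-(I * b)))
  set F : ℝ → ℂ := fun θ => C * ((Real.sin θ : ℂ) / axDen a b θ) ^ (2 * m + 1)
  set f : ℝ → ℂ := fun θ => 2 ^ (2 * (m + 1)) * (Real.sin θ : ℂ) ^ (2 * m) /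
    axDen a b θ ^ (2 * m + 2)
  have hne := axDen_ne_zero ha hb
  have hm1 : (2 * (m : ℂ) + 1) ≠ 0 := by exact_mod_cast Nat.succ_ne_zero (2 * m)
  have hIb : (I * b : ℂ) ≠ 0 := mul_ne_zero I_ne_zero (ofReal_ne_zero.2 hb)
  have hder : ∀ θ ∈ Set.uIcc 0 π, HasDerivAt F (f θ) θ := fun θ _ => by
    have hs := (Real.hasDerivAt_sin θ).ofReal_comp
    have hc := (Real.hasDerivAt_cos θ).ofReal_comp
    have hden : HasDerivAt (fun θ => axDen a b θ)
        ((a : ℂ) * Real.cos θ + I * b * Real.sin θ) θ := by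
      convert! (hs.const_mul (a : ℂ)).sub (hc.const_mul (I * (b : ℂ))) using 1
      push_cast
      ring
    convert! ((hs.fun_div hden (hne θ)).fun_pow (2 * m + 1)).const_mul C using 1
    simp only [f, C, axDen]
    have hn := hne θ
    have hone : (Real.sin θ : ℂ) ^ 2 + (Real.cos θ : ℂ) ^ 2 = 1 := by
      rw [← ofReal_pow, ← ofReal_pow, ← ofReal_add, Real.sin_sq_add_cos_sq, ofReal_one]
    rw [axDen] at hn
    push_cast
    rw [div_pow, pow_succ _ (2 * m + 1), pow_succ _ (2 * m)]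
    push_cast at hone hn
    have hb' : (b : ℂ) ≠ 0 := ofReal_ne_zero.2 hb
    have hI := I_ne_zero
    field_simp
    linear_combination (-(Complex.sin θ ^ (2 * m) * I * b)) * hone
  have hcont : Continuous f := Continuous.div (by fun_prop) (by unfold axDen; fun_prop)
    fun θ => pow_ne_zero _ (hne θ)
  calc ∫ θ in Ioo 0 π, (Real.sin θ ^ 2)⁻¹ • (2 * (Real.sin θ : ℂ) / axDen a b θ) ^ (2 * (m + 1))
      = ∫ θ in Ioo 0 π, f θ := setIntegral_congr_fun measurableSet_Ioo fun θ hθ => by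
        have hs := (Real.sin_pos_of_mem_Ioo hθ).ne'
        simp only [f, Complex.real_smul, div_pow, mul_pow, show 2 * (m + 1) = 2 * m + 2 by ring,
          pow_add (Real.sin θ : ℂ)]
        push_cast
        have hs' : Complex.sin θ ≠ 0 := by rw [← ofReal_sin]; exact ofReal_ne_zero.2 hs
        field_simp
    _ = ∫ θ in (0 : ℝ)..π, f θ := by
        rw [intervalIntegral.integral_of_le Real.pi_pos.le, integral_Ioc_eq_integral_Ioo]
    _ = 0 := by
        rw [intervalIntegral.integral_eq_sub_of_hasDerivAt hder (hcont.intervalIntegrable _ _)]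
        simp [F]

/-! ### The orbital integral -/

/-- Two functions with translates summing to one have the same integral. -/
theorem lintegral_eq_of_tsum_translates {ι : Type*} [Countable ι] (inv : ι ≃ ι) {t : ι → ℝ}
    (ht : ∀ i, t (inv i) = -t i) {f g : ℝ → ℝ≥0∞} (hfm : Measurable f) (hgm : Measurable g)
    (hf : ∀ x, ∑' i, f (x + t i) = 1) (hg : ∀ x, ∑' i, g (x + t i) = 1) :
    ∫⁻ x, f x = ∫⁻ x, g x := by
  calc ∫⁻ x, f x = ∫⁻ x, ∑' i, f x * g (x + t i) := by simp [ENNReal.tsum_mul_left, hg]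
    _ = ∑' i, ∫⁻ x, f x * g (x + t i) := lintegral_tsum fun i =>
        (hfm.mul (hgm.comp (measurable_id.add_const _))).aemeasurable
    _ = ∑' i, ∫⁻ y, f (y + t (inv i)) * g y := tsum_congr fun i => by
        rw [← lintegral_add_right_eq_self (fun y => f (y + t (inv i)) * g y) (t i)]
        simp [ht]
    _ = ∫⁻ y, ∑' i, f (y + t i) * g y := by
        rw [inv.tsum_eq fun i => ∫⁻ y, f (y + t i) * g y]
        exact (lintegral_tsum fun i =>
          ((hfm.comp (measurable_id.add_const _)).mul hgm).aemeasurable).symm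
    _ = ∫⁻ y, g y := by simp [ENNReal.tsum_mul_right, hf]

variable {Γ : Subgroup SL(2, ℝ)} [DiscreteTopology Γ] [CompactSpace (SL(2, ℝ) ⧸ Γ)]
  {ψ : ℂ → ℝ} {G : Finset Γ}

theorem smul_axPt {M : SL(2, ℝ)} (h01 : M 0 1 = 0) (h10 : M 1 0 = 0) {θ : ℝ} (hθ : θ ∈ Ioo 0 π)
    (x : ℝ) :
    M • ofComplex (axPt θ x) = ofComplex (axPt θ (x + Real.log (M 0 0 ^ 2))) := by
  have hdet := det_entries M
  rw [h01, zero_mul, sub_zero] at hdet
  have hne := left_ne_zero_of_mul_eq_one hdet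
  rw [ofComplex_apply_of_im_pos (im_axPt hθ x), ofComplex_apply_of_im_pos (im_axPt hθ _),
    UpperHalfPlane.ext_iff, coe_smul_eq_mob]
  show mob M (axPt θ x) = axPt θ _
  simp only [mob, jac, h01, h10, ofReal_zero, zero_mul, zero_add, add_zero, axPt]
  rw [eq_inv_of_mul_eq_one_right hdet, ofReal_inv, div_inv_eq_mul]
  conv_rhs => rw [ofReal_add, add_right_comm, Complex.exp_add, Complex.exp_add, ← ofReal_exp,
    ← ofReal_exp, Real.exp_log (pow_two_pos_of_ne_zero hne)]
  rw [Complex.exp_add, ← ofReal_exp]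
  push_cast
  ring

/-- **A hyperbolic orbital integral of any element vanishes.** -/
theorem tsum_conj_diag (h : IsPartition Γ ψ G) {Z : Subgroup Γ} {P g : SL(2, ℝ)}
    (hA : Axis Z P) (h01 : (P⁻¹ * g * P) 0 1 = 0) (h10 : (P⁻¹ * g * P) 1 0 = 0)
    (hne : (P⁻¹ * g * P) 0 0 ≠ (P⁻¹ * g * P) 1 1) {m : ℕ}
    (hs : Summable fun δ : Γ ⧸ Z => ∫ z : ℍ, ‖ψ z •
      qFun ((δ.out : SL(2, ℝ)) * g * (δ.out : SL(2, ℝ))⁻¹) z ^ (2 * (m + 1))‖) :
    ∑' δ : Γ ⧸ Z, orbAt ψ (2 * (m + 1)) ((δ.out : SL(2, ℝ)) * g * (δ.out : SL(2, ℝ))⁻¹) = 0 := by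
  haveI := countable_group Γ
  obtain ⟨hI, hsum⟩ := tsum_conj_orbAt Z h (2 * (m + 1)) g hs
  rw [hsum]
  set D := P⁻¹ * g * P
  have ha : D 0 0 + D 1 1 ≠ 0 := fun e => by
    have := det_entries D
    rw [h01, zero_mul, sub_zero, eq_neg_of_add_eq_zero_left e] at this
    nlinarith [mul_self_nonneg (D 1 1)]
  set u : ℍ → ℂ := fun w => cosetSum ψ Z w • qFun g w ^ (2 * (m + 1))
  have hu : ∀ v : ℍ, u (P • v) = cosetSum ψ Z (P • v) • qFun D v ^ (2 * (m + 1)) := fun v => by
    simp only [u, qFun_smul]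
    rfl
  have hIu : Integrable fun v : ℍ => u (P • v) := by
    obtain ⟨w, hw⟩ : ∃ w : ℍ → ℂ, u = w := ⟨_, rfl⟩
    have hI' : Integrable u := hI
    rw [hw] at hI' ⊢
    exact (MeasurePreserving.integrable_comp_emb (g := w) (measurePreserving_sl P)
      (measurableEmbedding_sl P)).2 hI'
  rw [show ∫ w : ℍ, cosetSum ψ Z w • qFun g w ^ (2 * (m + 1)) =
    ∫ v : ℍ, u (P • v) from
      ((measurePreserving_sl P).integral_comp (measurableEmbedding_sl P) u).symm,
    integral_axis hIu]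
  set Ψ : ℝ → ℝ → ℝ≥0∞ := fun θ x => cosetSumE ψ Z (P • ofComplex (axPt θ x))
  have hΨm : ∀ θ ∈ Ioo 0 π, Measurable (Ψ θ) := fun θ hθ => by
    refine (measurable_cosetSumE Z h).comp ((continuous_const_smul P).measurable.comp ?_)
    refine Continuous.measurable (UpperHalfPlane.isEmbedding_coe.continuous_iff.2 ?_)
    have e : (fun x => ((ofComplex (axPt θ x) : ℍ) : ℂ)) = axPt θ := funext fun x => by
      rw [ofComplex_apply_of_im_pos (im_axPt hθ x)]
    show Continuous fun x => ((ofComplex (axPt θ x) : ℍ) : ℂ)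
    rw [e]
    unfold axPt
    fun_prop
  have hΨs : ∀ θ ∈ Ioo 0 π, ∀ x, ∑' ζ : Z, Ψ θ (x + axisShift P (ζ : Γ)) = 1 := fun θ hθ x => by
    rw [← tsum_cosetSumE Z h (P • ofComplex (axPt θ x))]
    refine tsum_congr fun ζ => ?_
    simp only [Ψ, axisShift]
    rw [← smul_axPt (hA.upper _ ζ.2) (hA.lower _ ζ.2) hθ, ← mul_smul, Subgroup.smul_def,
      Subgroup.smul_def, ← mul_smul]
    congr 2
    group
  have hπ2 : π / 2 ∈ Ioo 0 π := ⟨by positivity, by linarith [Real.pi_pos]⟩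
  set C : ℝ := (∫⁻ x, Ψ (π / 2) x).toReal
  have hslice : ∀ θ ∈ Ioo 0 π,
      ∫ s : ℝ, (Real.sin θ ^ 2)⁻¹ • u (P • ofComplex (axPt θ s)) =
        C • ((Real.sin θ ^ 2)⁻¹ • (2 * (Real.sin θ : ℂ) /
          axDen (D 0 0 + D 1 1) (D 0 0 - D 1 1) θ) ^ (2 * (m + 1))) := fun θ hθ => by
    simp only [hu, qFun_diag (D := D) h01 h10 (sub_ne_zero.2 hne) hθ,
      smul_comm ((Real.sin θ ^ 2)⁻¹)]
    rw [integral_smul_const]
    congr 1
    show ∫ x, (Ψ θ x).toReal = C
    rw [integral_eq_lintegral_of_nonneg_ae (.of_forall fun s => ENNReal.toReal_nonneg)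
      (hΨm θ hθ).ennreal_toReal.aestronglyMeasurable]
    congr 1
    rw [lintegral_congr fun s => ENNReal.ofReal_toReal
      ((cosetSumE_le_one Z h _).trans_lt ENNReal.one_lt_top).ne]
    haveI : Countable Z := Subtype.countable
    exact lintegral_eq_of_tsum_translates (Equiv.inv Z) (t := fun ζ : Z => axisShift P (ζ : Γ))
      (fun ζ => hA.shift_inv ζ.2) (hΨm θ hθ) (hΨm _ hπ2) (hΨs θ hθ) (hΨs _ hπ2)
  rw [setIntegral_congr_fun measurableSet_Ioo hslice, integral_smul,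
    integral_angle_zero ha (sub_ne_zero.2 hne) m, smul_zero]

/-- **A hyperbolic orbital integral vanishes.** -/
theorem tsum_conj_hyperbolic (h : IsPartition Γ ψ G) {γ : Γ} (hγ : ∀ p : ℍ, γ • p ≠ p) {m : ℕ}
    (hm : 1 ≤ m) :
    ∑' δ : Γ ⧸ Subgroup.centralizer ({γ} : Set Γ),
      orbTerm ψ (2 * (m + 1)) (δ.out * γ * δ.out⁻¹) = 0 := by
  obtain ⟨P, hA, hne⟩ := exists_axis hγ
  have hγZ : γ ∈ Subgroup.centralizer ({γ} : Set Γ) :=
    Subgroup.mem_centralizer_iff.2 fun x hx => by rw [Set.mem_singleton_iff.1 hx]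
  have hinj : Function.Injective
      fun δ : Γ ⧸ Subgroup.centralizer ({γ} : Set Γ) => δ.out * γ * δ.out⁻¹ := fun a b hab => by
    have h' : a.out * γ * a.out⁻¹ = b.out * γ * b.out⁻¹ := hab
    rw [← QuotientGroup.out_eq' a, ← QuotientGroup.out_eq' b, QuotientGroup.eq]
    refine Subgroup.mem_centralizer_iff.2 fun x hx => ?_
    rw [Set.mem_singleton_iff.1 hx]
    calc γ * (a.out⁻¹ * b.out) = a.out⁻¹ * (a.out * γ * a.out⁻¹) * b.out := by group
      _ = a.out⁻¹ * (b.out * γ * b.out⁻¹) * b.out := by rw [h']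
      _ = a.out⁻¹ * b.out * γ := by group
  simpa [orbTerm, orbAt] using tsum_conj_diag h hA (g := (γ : SL(2, ℝ))) (hA.upper γ hγZ)
    (hA.lower γ hγZ) hne (m := m)
    (((summable_norm_orbTerm h (k := 2 * (m + 1)) (by omega)).comp_injective hinj).congr
      fun δ => by simp)

/-- The elements without fixed points. -/
def hypSet (Γ : Subgroup SL(2, ℝ)) : Set Γ := {γ | ∀ p : ℍ, γ • p ≠ p}

theorem conj_mem_hypSet {γ : Γ} (hγ : γ ∈ hypSet Γ) (d : Γ) : d * γ * d⁻¹ ∈ hypSet Γ :=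
  fun p hp => hγ (d⁻¹ • p) (by rw [eq_inv_smul_iff, ← mul_smul, ← mul_smul, hp])

/-- **All hyperbolic terms.** -/
theorem tsum_hypSet (h : IsPartition Γ ψ G) {m : ℕ} (hm : 1 ≤ m) :
    ∑' γ : hypSet Γ, orbTerm ψ (2 * (m + 1)) (γ : Γ) = 0 := by
  set c : hypSet Γ → ConjClasses Γ := fun γ => ConjClasses.mk (γ : Γ)
  have hs : Summable fun a : Σ x : ConjClasses Γ, {γ : hypSet Γ // c γ = x} =>
      orbTerm ψ (2 * (m + 1)) (a.2.1 : Γ) :=
    ((summable_orbTerm h (by omega)).subtype (hypSet Γ)).comp_injective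
      (Equiv.sigmaFiberEquiv c).injective
  refine ((Equiv.sigmaFiberEquiv c).tsum_eq
    fun γ : hypSet Γ => orbTerm ψ (2 * (m + 1)) (γ : Γ)).symm.trans ?_
  simp only [Equiv.sigmaFiberEquiv, Equiv.coe_fn_mk]
  rw [hs.tsum_sigma]
  refine (tsum_congr fun x => ?_).trans tsum_zero
  rcases isEmpty_or_nonempty {γ : hypSet Γ // c γ = x} with hx | ⟨⟨γ, hγ⟩, rfl⟩
  · exact tsum_empty
  set Z := Subgroup.centralizer ({(γ : Γ)} : Set Γ)
  let f : Γ ⧸ Z → {γ' : hypSet Γ // c γ' = c ⟨γ, hγ⟩} := fun δ =>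
    ⟨⟨δ.out * γ * δ.out⁻¹, conj_mem_hypSet hγ _⟩,
      ConjClasses.mk_eq_mk_iff_isConj.2 (isConj_iff.2 ⟨δ.out, rfl⟩).symm⟩
  have hf : Function.Bijective f := by
    refine ⟨fun a b hab => ?_, fun g => ?_⟩
    · have h' : a.out * γ * a.out⁻¹ = b.out * γ * b.out⁻¹ :=
        congrArg (fun y => ((y.1 : hypSet Γ) : Γ)) hab
      rw [← QuotientGroup.out_eq' a, ← QuotientGroup.out_eq' b, QuotientGroup.eq]
      refine Subgroup.mem_centralizer_iff.2 fun x hx => ?_
      rw [Set.mem_singleton_iff.1 hx]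
      calc γ * (a.out⁻¹ * b.out) = a.out⁻¹ * (a.out * γ * a.out⁻¹) * b.out := by group
        _ = a.out⁻¹ * (b.out * γ * b.out⁻¹) * b.out := by rw [h']
        _ = a.out⁻¹ * b.out * γ := by group
    · obtain ⟨d, hd⟩ := isConj_iff.1 (ConjClasses.mk_eq_mk_iff_isConj.1 g.2.symm)
      obtain ⟨z, hz⟩ := QuotientGroup.mk_out_eq_mul Z d
      refine ⟨QuotientGroup.mk d, Subtype.ext (Subtype.ext ?_)⟩
      show (QuotientGroup.mk d : Γ ⧸ Z).out * γ * (QuotientGroup.mk d : Γ ⧸ Z).out⁻¹ = (g.1 : Γ)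
      have hzc : γ * (z : Γ) = (z : Γ) * γ := Subgroup.mem_centralizer_iff.1 z.2 γ rfl
      rw [hz, ← hd]
      calc d * (z : Γ) * γ * (d * (z : Γ))⁻¹ = d * ((z : Γ) * γ) * (z : Γ)⁻¹ * d⁻¹ := by group
        _ = d * (γ * (z : Γ)) * (z : Γ)⁻¹ * d⁻¹ := by rw [hzc]
        _ = d * γ * d⁻¹ := by group
  refine ((Equiv.ofBijective f hf).tsum_eq
    fun y : {γ' : hypSet Γ // c γ' = c ⟨γ, hγ⟩} => orbTerm ψ (2 * (m + 1)) (y.1 : Γ)).symm.trans ?_
  exact tsum_conj_hyperbolic h hγ hm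

end FA.CocompactTrace

end
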