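import Fermat.Agent.CocompactTrace.Formula
import Fermat.Agent.QuaternionNormalizer.Signature
import Fermat.Agent.QuaternionLevel.Genus

/-!
# Exact dimensions for the algebra of discriminant `6`

The units, their normaliser and the levels `p`, in every weight at least four.
-/

set_option autoImplicit false
set_option linter.unusedSectionVars false
set_option linter.style.haveILetI false

noncomputable section

open Set Filter Topology Matrix
open UpperHalfPlane hiding I
open scoped MatrixGroups Real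
open FA.QuaternionHecke FA.CocompactForms FA.CocompactDegree FA.CocompactGaussBonnet

namespace FA.CocompactTrace

theorem finrank_orderUnits {m : ℕ} (hm : 2 ≤ m) :
    (Module.finrank ℂ (forms orderUnits ((2 * m : ℕ) : ℤ)) : ℤ) =
      1 - 2 * (m : ℤ) + 2 * ((m / 2 : ℕ) : ℤ) + 2 * ((2 * m / 3 : ℕ) : ℤ) := by
  rw [finrank_exact_of_area orderUnits (g := 0) ?_ hm, QuaternionCurve.floorSum_eq]
  · push_cast
    ring
  · rw [QuaternionCurve.area_eq_dimension.1, QuaternionCurve.ellipticDefect_eq]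
    push_cast
    ring

theorem finrank_normalizer {m : ℕ} (hm : 2 ≤ m) :
    (Module.finrank ℂ (forms QuaternionNormalizer.unitsNormalizer ((2 * m : ℕ) : ℤ)) : ℤ) =
      1 - 2 * (m : ℤ) + ((m / 2 : ℕ) : ℤ) + ((3 * m / 4 : ℕ) : ℤ) + ((5 * m / 6 : ℕ) : ℤ) := by
  obtain ⟨hD, P, -, -, -, -, -, hfloor⟩ := QuaternionNormalizer.signature
  rw [finrank_exact_of_area QuaternionNormalizer.unitsNormalizer (g := 0) ?_ hm, hfloor]
  · push_cast
    ring
  · rw [QuaternionNormalizer.area_unitsNormalizer, hD]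
    push_cast
    ring

theorem finrank_eichler (p : ℕ) [Fact p.Prime] (hp5 : 5 ≤ p) : ∃ g : ℕ,
    6 * (g : ℤ) = p - 3 * legendreSym p (-4) - 4 * legendreSym p (-3) ∧
    ∀ m : ℕ, 2 ≤ m →
      (Module.finrank ℂ (forms (QuaternionLevel.eichler p hp5) ((2 * m : ℕ) : ℤ)) : ℤ) =
        (2 * (m : ℤ) - 1) * ((g : ℤ) - 1) +
          (1 + legendreSym p (-4)) * (2 * ((m / 2 : ℕ) : ℤ)) +
          (1 + legendreSym p (-3)) * (2 * ((2 * m / 3 : ℕ) : ℤ)) := by
  obtain ⟨g, ⟨hg, harea⟩, -⟩ := QuaternionLevel.eichler_genus_dimension p hp5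
  refine ⟨g, hg, fun m hm => ?_⟩
  rw [finrank_exact_of_area _ harea hm, QuaternionLevel.floorSum_eichler, add_assoc]

/-- Weight four. -/
theorem finrank_eichler_four (p : ℕ) [Fact p.Prime] (hp5 : 5 ≤ p) :
    2 * (Module.finrank ℂ (forms (QuaternionLevel.eichler p hp5) 4) : ℤ) =
      (p : ℤ) + legendreSym p (-4) + 2 := by
  obtain ⟨g, hg, h⟩ := finrank_eichler p hp5
  have h2 := h 2 le_rfl
  rw [show ((2 * 2 : ℕ) : ℤ) = 4 by norm_num] at h2
  norm_num at h2
  linarith

end FA.CocompactTrace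

end
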