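import Fermat.Agent.CocompactGaussBonnet.Formula

/-!
# The trace identity term by term

The trace identity is a sum over the group of absolutely convergent integrals.  Over the conjugates
of one element by a set of cosets the sum is one integral against a function whose translates by
the subgroup sum to one.
-/

set_option autoImplicit false
set_option linter.unusedSectionVars false
set_option linter.style.haveILetI false

noncomputable section

open MeasureTheory Set Filter Topology Complex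
open UpperHalfPlane hiding I
open FA.CocompactForms FA.CocompactFunctions FA.CocompactDegree FA.CocompactGaussBonnet FA.SLnCount
open scoped MatrixGroups Manifold Real ComplexConjugate ENNReal

namespace FA.CocompactTrace

variable {Γ : Subgroup SL(2, ℝ)} [DiscreteTopology Γ] {ψ : ℂ → ℝ} {G : Finset Γ}

/-- The term of one element in the trace identity. -/
def orbTerm (ψ : ℂ → ℝ) (k : ℕ) (γ : Γ) : ℂ :=
  ∫ z : ℍ, ψ z • qFun (γ : SL(2, ℝ)) z ^ k

theorem integrable_orbTerm (h : IsPartition Γ ψ G) (k : ℕ) (g : SL(2, ℝ)) :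
    Integrable fun z : ℍ => ψ z • qFun g z ^ k :=
  integrable_partition_mul h ((continuous_qFun _).pow k)

/-- The term of any element of `SL(2, ℝ)`. -/
def orbAt (ψ : ℂ → ℝ) (k : ℕ) (g : SL(2, ℝ)) : ℂ := ∫ z : ℍ, ψ z • qFun g z ^ k

theorem summable_norm_translate (h : IsPartition Γ ψ G) {k : ℕ} (hk : 3 ≤ k) (r : SL(2, ℝ)) :
    Summable fun γ : Γ => ∫ z : ℍ, ‖ψ z • qFun ((γ : SL(2, ℝ)) * r) z ^ k‖ := by
  classical
  set K : Set ℍ := ((↑) : ℍ → ℂ) ⁻¹' tsupport ψ with hKdef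
  have hK : IsCompact K := UpperHalfPlane.isEmbedding_coe.isInducing.isCompact_preimage'
    h.compact.isCompact (h.subset.trans_eq UpperHalfPlane.range_coe.symm)
  obtain ⟨c, hc⟩ := hK.exists_bound_of_continuousOn continuous_normSq_toSL2R.continuousOn
  set N := normSqSL r⁻¹
  have hN : 0 < N := lt_of_lt_of_le two_pos (two_le_normSqSL _)
  have hle : ∀ γ : Γ, normSqSL (γ : SL(2, ℝ)) ≤ normSqSL ((γ : SL(2, ℝ)) * r) * N := fun γ => by
    have := normSqSL_mul_le ((γ : SL(2, ℝ)) * r) r⁻¹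
    rwa [mul_inv_cancel_right] at this
  set v : Γ → ℝ := fun γ =>
    2 * Real.sqrt c * (Real.sqrt (normSqSL ((γ : SL(2, ℝ)) * r)))⁻¹ with hv
  have hvs : Summable fun γ => v γ ^ 3 := by
    refine Summable.of_nonneg_of_le (fun γ => by simp only [hv]; positivity) (fun γ => ?_)
      ((summable_normSqSL Γ).mul_left ((2 * Real.sqrt c * Real.sqrt N) ^ 3))
    simp only [hv, ← mul_pow]
    refine pow_le_pow_left₀ (by positivity) ?_ 3
    have h1 := two_le_normSqSL (γ : SL(2, ℝ))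
    have h2 := two_le_normSqSL ((γ : SL(2, ℝ)) * r)
    have h3 := Real.sqrt_le_sqrt (hle γ)
    rw [Real.sqrt_mul (by linarith)] at h3
    rw [mul_assoc (2 * Real.sqrt c)]
    refine mul_le_mul_of_nonneg_left ?_ (by positivity)
    rw [inv_le_iff_one_le_mul₀ (Real.sqrt_pos.2 (by linarith)), mul_right_comm, ← div_eq_mul_inv,
      one_le_div₀ (Real.sqrt_pos.2 (by linarith))]
    linarith [mul_comm (Real.sqrt (normSqSL ((γ : SL(2, ℝ)) * r))) (Real.sqrt N)]
  refine Summable.of_norm_bounded_eventually (hvs.mul_left (∫ z : ℍ, ψ z))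
    ((finite_normSqSL_le Γ (4 * c * N)).subset fun γ hγ => ?_)
  by_contra hbig
  simp only [Set.mem_ofPred_eq, not_le] at hbig
  refine hγ ?_
  show ‖∫ z : ℍ, ‖ψ z • qFun ((γ : SL(2, ℝ)) * r) z ^ k‖‖ ≤ (∫ z : ℍ, ψ z) * v γ ^ 3
  rw [Real.norm_of_nonneg (integral_nonneg fun z => norm_nonneg _), ← integral_mul_const]
  refine integral_mono ((integrable_orbTerm h k _).norm) (h.integrable.mul_const _) fun z => ?_
  simp only [norm_smul, norm_pow, Real.norm_eq_abs, abs_of_nonneg (h.nonneg _)]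
  rcases eq_or_ne (ψ z) 0 with h0 | h0
  · simp [h0]
  have hz : z ∈ K := subset_closure h0
  have hqv : ‖qFun ((γ : SL(2, ℝ)) * r) z‖ ≤ v γ :=
    norm_qFun_le ((le_abs_self _).trans ((Real.norm_eq_abs _).symm.trans_le (hc z hz)))
  have hv1 : v γ ≤ 1 := by
    have hn := two_le_normSqSL ((γ : SL(2, ℝ)) * r)
    have hbig' : 4 * c < normSqSL ((γ : SL(2, ℝ)) * r) :=
      lt_of_mul_lt_mul_right (hbig.trans_le (hle γ)) hN.le
    simp only [hv]
    rw [← div_eq_mul_inv, div_le_iff₀ (Real.sqrt_pos.2 (by linarith)), one_mul]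
    refine le_of_eq_of_le ?_ (Real.sqrt_le_sqrt hbig'.le)
    rw [Real.sqrt_mul (by norm_num), show (4 : ℝ) = 2 ^ 2 by norm_num,
      Real.sqrt_sq (by norm_num)]
  exact mul_le_mul_of_nonneg_left ((pow_le_pow_left₀ (norm_nonneg _) hqv k).trans
    (pow_le_pow_of_le_one ((norm_nonneg _).trans hqv) hv1 hk)) (h.nonneg _)

theorem summable_norm_orbTerm (h : IsPartition Γ ψ G) {k : ℕ} (hk : 3 ≤ k) :
    Summable fun γ : Γ => ∫ z : ℍ, ‖ψ z • qFun (γ : SL(2, ℝ)) z ^ k‖ := by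
  simpa using summable_norm_translate h hk 1

theorem summable_orbTerm (h : IsPartition Γ ψ G) {k : ℕ} (hk : 3 ≤ k) :
    Summable (orbTerm ψ k : Γ → ℂ) :=
  Summable.of_norm_bounded (summable_norm_orbTerm h hk) fun _ => norm_integral_le_integral_norm _

/-- **The trace identity, term by term.** -/
theorem finrank_eq_tsum [CompactSpace (SL(2, ℝ) ⧸ Γ)] (h : IsPartition Γ ψ G) {k : ℕ}
    (hk : 4 ≤ k) :
    (Module.finrank ℂ (forms Γ (k : ℤ)) : ℂ) =
      ((k : ℂ) - 1) / (4 * π) * ∑' γ : Γ, orbTerm ψ k γ := by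
  haveI := countable_group Γ
  rw [finrank_eq_integral h hk]
  congr 1
  unfold orbTerm
  rw [integral_tsum_of_summable_integral_norm (fun γ => integrable_orbTerm h k _)
    (summable_norm_orbTerm h (by omega))]
  refine integral_congr_ae (.of_forall fun z => ?_)
  simp only [Complex.real_smul]
  exact tsum_mul_left.symm

/-! ### Sums over cosets -/

/-- The sum of the translates of the test function over coset representatives. -/
def cosetSumE (ψ : ℂ → ℝ) (Z : Subgroup Γ) (w : ℍ) : ℝ≥0∞ :=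
  ∑' δ : Γ ⧸ Z, ENNReal.ofReal (ψ ((δ.out • w : ℍ) : ℂ))

/-- The same as a real number. -/
def cosetSum (ψ : ℂ → ℝ) (Z : Subgroup Γ) (w : ℍ) : ℝ := (cosetSumE ψ Z w).toReal

variable (Z : Subgroup Γ)

theorem out_mul_bijective :
    Function.Bijective fun x : (Γ ⧸ Z) × Z => x.1.out * (x.2 : Γ) := by
  refine ⟨fun a b h => ?_, fun γ => ?_⟩
  · have h' : a.1.out * (a.2 : Γ) = b.1.out * (b.2 : Γ) := h
    have h1 : a.1 = b.1 := by
      have e := congrArg (fun g : Γ => (QuotientGroup.mk g : Γ ⧸ Z)) h'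
      simpa using e
    refine Prod.ext h1 (Subtype.ext ?_)
    rw [h1] at h'
    exact mul_left_cancel h'
  · obtain ⟨z, hz⟩ := QuotientGroup.mk_out_eq_mul Z γ
    exact ⟨⟨QuotientGroup.mk γ, z⁻¹⟩, by simp [hz]⟩

theorem tsum_cosetSumE (h : IsPartition Γ ψ G) (w : ℍ) :
    ∑' ζ : Z, cosetSumE ψ Z (ζ • w) = 1 := by
  simp only [cosetSumE]
  rw [ENNReal.tsum_comm, ← ENNReal.tsum_prod]
  have e : ∀ (δ : Γ ⧸ Z) (ζ : Z), δ.out • ζ • w = (δ.out * (ζ : Γ)) • w := fun δ ζ =>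
    (mul_smul _ _ _).symm
  simp only [e]
  refine ((Equiv.ofBijective _ (out_mul_bijective Z)).tsum_eq
    fun γ : Γ => ENNReal.ofReal (ψ ((γ • w : ℍ) : ℂ))).trans ?_
  rw [← ENNReal.ofReal_tsum_of_nonneg (fun γ => h.nonneg _) (h.hasSum w).summable,
    (h.hasSum w).tsum_eq, ENNReal.ofReal_one]

theorem cosetSumE_le_one (h : IsPartition Γ ψ G) (w : ℍ) : cosetSumE ψ Z w ≤ 1 := by
  refine le_trans ?_ (tsum_cosetSumE Z h w).le
  refine le_trans (le_of_eq ?_) (ENNReal.le_tsum (1 : Z))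
  rw [one_smul]

theorem measurable_cosetSumE (h : IsPartition Γ ψ G) : Measurable (cosetSumE ψ Z) := by
  haveI := countable_group Γ
  haveI : Countable (Γ ⧸ Z) := (QuotientGroup.mk_surjective (s := Z)).countable
  exact Measurable.tsum fun δ => ENNReal.measurable_ofReal.comp
    ((h.continuous_restrict.comp (continuous_const_smul δ.out)).measurable)

/-- **The sum over conjugates of any element as one integral.** -/
theorem tsum_conj_orbAt (h : IsPartition Γ ψ G) (k : ℕ) (g : SL(2, ℝ))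
    (hs : Summable fun δ : Γ ⧸ Z => ∫ z : ℍ, ‖ψ z •
      qFun ((δ.out : SL(2, ℝ)) * g * (δ.out : SL(2, ℝ))⁻¹) z ^ k‖) :
    Integrable (fun w : ℍ => cosetSum ψ Z w • qFun g w ^ k) ∧
      ∑' δ : Γ ⧸ Z, orbAt ψ k ((δ.out : SL(2, ℝ)) * g * (δ.out : SL(2, ℝ))⁻¹) =
        ∫ w : ℍ, cosetSum ψ Z w • qFun g w ^ k := by
  haveI := countable_group Γ
  haveI : Countable (Γ ⧸ Z) := (QuotientGroup.mk_surjective (s := Z)).countable
  obtain ⟨d, hd⟩ : ∃ d : Γ ⧸ Z → SL(2, ℝ), (fun δ => ((δ.out : Γ) : SL(2, ℝ))) = d := ⟨_, rfl⟩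
  have hd' : ∀ δ : Γ ⧸ Z, ((δ.out : Γ) : SL(2, ℝ)) = d δ := congrFun hd
  set F : ℍ → ℂ := fun w => qFun g w ^ k with hF
  set f : Γ ⧸ Z → ℍ → ℂ := fun δ w => ψ ((δ.out • w : ℍ) : ℂ) • F w with hf
  obtain ⟨u, hu⟩ : ∃ u : Γ ⧸ Z → ℍ → ℂ,
      (fun (δ : Γ ⧸ Z) (z : ℍ) => ψ z • qFun (d δ * g * (d δ)⁻¹) z ^ k) = u := ⟨_, rfl⟩
  have hu' : ∀ (δ : Γ ⧸ Z) (z : ℍ), ψ z • qFun (d δ * g * (d δ)⁻¹) z ^ k = u δ z := fun δ z =>
    congrFun (congrFun hu δ) z
  have hui : ∀ δ, Integrable (u δ) := fun δ => by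
    rw [← hu]
    exact integrable_orbTerm h k _
  have hfe : ∀ δ : Γ ⧸ Z, f δ = fun w => u δ (d δ • w) := fun δ => funext fun w => by
    rw [← hu', qFun_smul, show (d δ)⁻¹ * (d δ * g * (d δ)⁻¹) * d δ = g by group]
    simp only [hf, hF, Subgroup.smul_def, hd']
  have hint : ∀ δ, Integrable (f δ) := fun δ => by
    rw [hfe δ]
    exact (MeasurePreserving.integrable_comp_emb (g := u δ) (measurePreserving_sl (d δ))
      (measurableEmbedding_sl (d δ))).2 (hui δ)
  have hs' : Summable fun δ => ∫ w : ℍ, ‖f δ w‖ := by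
    simp only [hd', hu'] at hs
    refine hs.congr fun δ => ?_
    rw [hfe δ]
    exact ((measurePreserving_sl (d δ)).integral_comp (measurableEmbedding_sl (d δ))
      fun z => ‖u δ z‖).symm
  have hsum : ∀ w, Summable fun δ : Γ ⧸ Z => ψ ((δ.out • w : ℍ) : ℂ) := fun w =>
    (ENNReal.summable_toReal ((cosetSumE_le_one Z h w).trans_lt ENNReal.one_lt_top).ne).congr
      fun δ => ENNReal.toReal_ofReal (h.nonneg _)
  have hval : ∀ w, ∑' δ, f δ w = cosetSum ψ Z w • F w := fun w => by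
    rw [hf, cosetSum, cosetSumE, ENNReal.tsum_toReal_eq fun δ => ENNReal.ofReal_ne_top]
    simp only [ENNReal.toReal_ofReal (h.nonneg _)]
    exact (hsum w).tsum_smul_const _
  refine ⟨⟨((measurable_cosetSumE Z h).ennreal_toReal.aestronglyMeasurable).smul
    ((continuous_qFun _).pow k).aestronglyMeasurable, ?_⟩, ?_⟩
  · rw [hasFiniteIntegral_iff_enorm]
    calc ∫⁻ w : ℍ, ‖cosetSum ψ Z w • F w‖ₑ ≤ ∫⁻ w : ℍ, ∑' δ, ‖f δ w‖ₑ :=
          lintegral_mono fun w => by rw [← hval]; exact enorm_tsum_le_tsum_enorm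
      _ = ∑' δ, ∫⁻ w : ℍ, ‖f δ w‖ₑ := lintegral_tsum fun δ => (hint δ).1.enorm
      _ < ⊤ := by
          simp only [← ofReal_integral_norm_eq_lintegral_enorm (hint _)]
          rw [← ENNReal.ofReal_tsum_of_nonneg (fun δ => integral_nonneg fun w => norm_nonneg _) hs']
          exact ENNReal.ofReal_lt_top
  · rw [← funext hval, ← integral_tsum_of_summable_integral_norm hint hs']
    refine tsum_congr fun δ => ?_
    simp only [orbAt, hd', hu']
    rw [hfe δ]
    exact ((measurePreserving_sl (d δ)).integral_comp (measurableEmbedding_sl (d δ)) (u δ)).symm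

/-- **The sum over conjugates as one integral.** -/
theorem tsum_conj_orbTerm (h : IsPartition Γ ψ G) {k : ℕ} (hk : 3 ≤ k) (γ : Γ)
    (hinj : Function.Injective fun δ : Γ ⧸ Z => δ.out * γ * δ.out⁻¹) :
    Integrable (fun w : ℍ => cosetSum ψ Z w • qFun (γ : SL(2, ℝ)) w ^ k) ∧
      ∑' δ : Γ ⧸ Z, orbTerm ψ k (δ.out * γ * δ.out⁻¹) =
        ∫ w : ℍ, cosetSum ψ Z w • qFun (γ : SL(2, ℝ)) w ^ k := by
  simpa [orbTerm, orbAt] using tsum_conj_orbAt Z h k (γ : SL(2, ℝ))
    (((summable_norm_orbTerm h hk).comp_injective hinj).congr fun δ => by simp)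

end FA.CocompactTrace

end
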